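/-
S55 / 24a-LOC-DUAL20 (helper26), part (A): local level structures.

* `fullLevels` : the level structure of all finite levels of `G_ℚ`.
* `LevelStr.comap` : pull-back of a level structure along a group homomorphism.
* `localLevels q` : the level structure on `Gal(PadicAlgCl q / ℚ_q)` pulled back from `G_ℚ`.
* the Prelude's `continuousH2 r N` is the level cohomology `H²(fullLevels.comap r; N)`, and the
  Prelude's localisation map `locRes₂S` is `Dualizing59.H2map`.
-/
import Fermat.Agent.S55.Profin15.Bridge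
import Fermat.Agent.S55.Dualizing59.Map
import Fermat.Prelude.Def_GroupCohomology_ContinuousUnramified

set_option autoImplicit false
set_option linter.style.haveILetI false

open CategoryTheory groupCohomology ExtCitation
open Fermat.Agent.Lib.FrobeniusExists

namespace Fermat.Agent.S55.LocDual26.LocalLevels

open Fermat.Agent.S55.Profin15 Fermat.Agent.S55.Dualizing59

attribute [local instance] isAlgebraic_Qb isAlgClosure_Qb isGalois_Qb

/-! ### Pull-back of level structures -/

section Comap

universe u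

variable {G H : Type u} [Group G] [Group H]

/-- Pull-back of a level structure along a group homomorphism. -/
def comap (𝒰 : LevelStr G) (r : H →* G) : LevelStr H where
  levels := {V | ∃ U ∈ 𝒰.levels, V = U.comap r}
  nonempty := by
    obtain ⟨U, hU⟩ := 𝒰.nonempty
    exact ⟨U.comap r, U, hU, rfl⟩
  normal := by
    rintro V ⟨U, hU, rfl⟩
    haveI := 𝒰.normal U hU
    exact Subgroup.Normal.comap inferInstance r
  finiteIndex := by
    rintro V ⟨U, hU, rfl⟩
    haveI := 𝒰.finiteIndex U hU
    refine ⟨?_⟩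
    rw [Subgroup.index_comap]
    exact (Subgroup.isFiniteRelIndex_of_finiteIndex (H := U) (K := r.range)).relIndex_ne_zero
  directed := by
    rintro V ⟨U, hU, rfl⟩ V' ⟨U', hU', rfl⟩
    obtain ⟨W, hW, hle⟩ := 𝒰.directed U hU U' hU'
    refine ⟨W.comap r, ⟨W, hW, rfl⟩, ?_⟩
    rw [← Subgroup.comap_inf]
    exact Subgroup.comap_mono hle

theorem mem_comap_levels {𝒰 : LevelStr G} {r : H →* G} {V : Subgroup H} :
    V ∈ (comap 𝒰 r).levels ↔ ∃ U ∈ 𝒰.levels, V = U.comap r := Iff.rfl

theorem isCont_comap (𝒰 : LevelStr G) (r : H →* G) : IsCont (comap 𝒰 r) 𝒰 r :=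
  fun V hV => ⟨V.comap r, ⟨V, hV, rfl⟩, fun _ hs => hs⟩

theorem isConst₁_comap_iff {𝒰 : LevelStr G} {r : H →* G} {X : Type*} (f : H → X) :
    (comap 𝒰 r).IsConst₁ f ↔ ∃ U ∈ 𝒰.levels, ∀ g s, r s ∈ U → f (g * s) = f g := by
  constructor
  · rintro ⟨V, ⟨U, hU, rfl⟩, h⟩
    exact ⟨U, hU, fun g s hs => h g s hs⟩
  · rintro ⟨U, hU, h⟩
    exact ⟨U.comap r, ⟨U, hU, rfl⟩, fun g s hs => h g s hs⟩

theorem isConst₂_comap_iff {𝒰 : LevelStr G} {r : H →* G} {X : Type*} (f : H × H → X) :
    (comap 𝒰 r).IsConst₂ f ↔ ∃ U ∈ 𝒰.levels, ∀ g g' s s', r s ∈ U → r s' ∈ U →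
      f (g * s, g' * s') = f (g, g') := by
  constructor
  · rintro ⟨V, ⟨U, hU, rfl⟩, h⟩
    exact ⟨U, hU, fun g g' s s' hs hs' => h g g' s s' hs hs'⟩
  · rintro ⟨U, hU, h⟩
    exact ⟨U.comap r, ⟨U, hU, rfl⟩, fun g g' s s' hs hs' => h g g' s s' hs hs'⟩

/-- If `r` is continuous for `𝒲` on `H` and `𝒰` on `G`, it is continuous for the pull-backs. -/
theorem isCont_comap_of_le {𝒰 𝒰' : LevelStr G} (r : H →* G)
    (h : ∀ U ∈ 𝒰.levels, ∃ U' ∈ 𝒰'.levels, U' ≤ U) : IsCont (comap 𝒰' r) 𝒰 r := by
  intro U hU
  obtain ⟨U', hU', hle⟩ := h U hU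
  exact ⟨U'.comap r, ⟨U', hU', rfl⟩, fun s hs => hle hs⟩

theorem isSmooth_res {k : Type u} [CommRing k] {𝒰 : LevelStr G} (r : H →* G) {M : Rep k G}
    (hM : 𝒰.IsSmooth M) : (comap 𝒰 r).IsSmooth (Rep.res r M) := by
  intro m
  obtain ⟨U, hU, h⟩ := hM m
  exact ⟨U.comap r, ⟨U, hU, rfl⟩, fun s hs => h (r s) hs⟩

end Comap

/-! ### All finite levels of `G_ℚ` -/

/-- The level structure of all finite levels: normal fixing subgroups of finite extensions. -/
noncomputable def fullLevels : LevelStr GQ where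
  levels := {U | U.Normal ∧ ∃ F : IntermediateField ℚ Qb, FiniteDimensional ℚ F ∧
    U = F.fixingSubgroup}
  nonempty := by
    obtain ⟨F', _, hF', hn, _⟩ := exists_normal_ge (K := ℚ) (L := Qb) (⊥ : IntermediateField ℚ Qb)
    exact ⟨F'.fixingSubgroup, hn, F', hF', rfl⟩
  normal := fun U hU => hU.1
  finiteIndex := by
    rintro U ⟨_, F, hF, rfl⟩
    haveI := hF
    exact fixingSubgroup_finiteIndex F
  directed := by
    rintro U ⟨hU, F, hF, rfl⟩ V ⟨hV, F', hF', rfl⟩
    haveI := hF; haveI := hF'
    refine ⟨(F ⊔ F').fixingSubgroup, ⟨?_, F ⊔ F', inferInstance, rfl⟩, ?_⟩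
    · rw [IntermediateField.fixingSubgroup_sup]
      exact Subgroup.normal_inf_normal _ _
    · rw [IntermediateField.fixingSubgroup_sup]

theorem mem_fullLevels_iff {U : Subgroup GQ} :
    U ∈ fullLevels.levels ↔ U.Normal ∧ ∃ F : IntermediateField ℚ Qb,
      FiniteDimensional ℚ F ∧ U = F.fixingSubgroup := Iff.rfl

/-- every finite extension is contained in one with normal fixing subgroup -/
theorem exists_fullLevel_le (F : IntermediateField ℚ Qb) [FiniteDimensional ℚ F] :
    ∃ U ∈ fullLevels.levels, U ≤ F.fixingSubgroup := by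
  obtain ⟨F', hle, hF', hn, _⟩ := exists_normal_ge (K := ℚ) (L := Qb) F
  exact ⟨F'.fixingSubgroup, ⟨hn, F', hF', rfl⟩, IntermediateField.fixingSubgroup_antitone hle⟩

/-- The `S`-levels are full levels. -/
theorem globalLevels_le_fullLevels (S : Finset Nat.Primes) :
    (globalLevels S).levels ⊆ fullLevels.levels := by
  rintro U ⟨hU, F, hF, rfl⟩
  exact ⟨hU, F, hF.1, rfl⟩

/-! ### The Prelude's level-constancy along `r : H →* G_ℚ` -/

section Prelude

variable {H : Type} [Group H] (r : H →* GQ)

theorem isLevelConstant₁_iff {X : Type*} (f : H → X) :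
    IsLevelConstant₁ r f ↔ (comap fullLevels r).IsConst₁ f := by
  rw [isConst₁_comap_iff]
  constructor
  · rintro ⟨F, hF, h⟩
    haveI := hF
    obtain ⟨U, hU, hle⟩ := exists_fullLevel_le F
    exact ⟨U, hU, fun g s hs => h g s (hle hs)⟩
  · rintro ⟨U, ⟨_, F, hF, rfl⟩, h⟩
    exact ⟨F, hF, h⟩

theorem isLevelConstant₂_iff {X : Type*} (f : H × H → X) :
    IsLevelConstant₂ r f ↔ (comap fullLevels r).IsConst₂ f := by
  rw [isConst₂_comap_iff]
  constructor
  · rintro ⟨F, hF, h⟩
    haveI := hF
    obtain ⟨U, hU, hle⟩ := exists_fullLevel_le F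
    exact ⟨U, hU, fun g g' s s' hs hs' => h g g' s s' (hle hs) (hle hs')⟩
  · rintro ⟨U, ⟨_, F, hF, rfl⟩, h⟩
    exact ⟨F, hF, h⟩

variable {k : Type} [CommRing k] (N : Rep k H)

theorem levelCochains₁_eq : levelCochains₁ r N = (comap fullLevels r).C₁ N := by
  ext f; exact isLevelConstant₁_iff r f

theorem levelCochains₂_eq : levelCochains₂ r N = (comap fullLevels r).C₂ N := by
  ext f; exact isLevelConstant₂_iff r f

theorem levelCocycles₂_eq : levelCocycles₂ r N = (comap fullLevels r).Z₂ N := by
  rw [levelCocycles₂, LevelStr.Z₂, levelCochains₂_eq]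

theorem levelCoboundaries₂_eq : levelCoboundaries₂ r N = (comap fullLevels r).B₂ N := by
  rw [levelCoboundaries₂, LevelStr.B₂, levelCochains₁_eq]

/-- `continuousH2 r N ≃ H²(fullLevels.comap r; N)`, the identity on cocycles. -/
noncomputable def continuousH2Equiv : continuousH2 r N ≃ₗ[k] (comap fullLevels r).H2 N :=
  quotEquivOfEq (levelCocycles₂_eq r N) (levelCoboundaries₂_eq r N)

@[simp]
lemma continuousH2Equiv_mk (f : ↥(levelCocycles₂ r N)) :
    continuousH2Equiv r N (continuousH2π r N f) =
      (comap fullLevels r).H2π N ⟨(f : H × H → N), levelCocycles₂_eq r N ▸ f.2⟩ := rfl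

end Prelude

/-! ### The local level structures -/

/-- The level structure on the local Galois group at `q`, pulled back from `G_ℚ`. -/
noncomputable def localLevels (q : Nat.Primes) : LevelStr (primeLocalGaloisGroup q) :=
  comap fullLevels (primeLocalToGlobal q)

theorem isCont_local (S : Finset Nat.Primes) (q : Nat.Primes) :
    IsCont (localLevels q) (globalLevels S) (primeLocalToGlobal q) :=
  isCont_comap_of_le _ fun U hU => ⟨U, globalLevels_le_fullLevels S hU, le_rfl⟩

theorem isCont_local_full (q : Nat.Primes) :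
    IsCont (localLevels q) fullLevels (primeLocalToGlobal q) :=
  isCont_comap _ _

/-- `G_ℚ` with all levels is finer than with the `S`-levels. -/
theorem isCont_full_global (S : Finset Nat.Primes) :
    IsCont fullLevels (globalLevels S) (MonoidHom.id GQ) :=
  fun U hU => ⟨U, globalLevels_le_fullLevels S hU, fun _ hs => hs⟩

section Loc

variable (S : Finset Nat.Primes) (q : Nat.Primes) {k : Type} [CommRing k] (M : Rep k GQ)

/-- the identity of `M`, as an equivariant map along `primeLocalToGlobal q` -/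
theorem isEquivariant_id :
    IsEquivariant (primeLocalToGlobal q) M (Rep.res (primeLocalToGlobal q) M)
      (LinearMap.id : M →ₗ[k] Rep.res (primeLocalToGlobal q) M) :=
  fun _ _ => rfl

/-- **The Prelude's localisation map `locRes₂S` is `Dualizing59.H2map`.** -/
theorem locRes₂S_eq (x : continuousH2S S M) :
    continuousH2Equiv (primeLocalToGlobal q) (Rep.res (primeLocalToGlobal q) M)
        (locRes₂S S M (primeLocalToGlobal q) x) =
      H2map (isCont_local S q) (isEquivariant_id q M) (continuousH2SEquiv S M x) := by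
  obtain ⟨f, rfl⟩ := Submodule.mkQ_surjective _ x
  rfl

theorem isSmooth_local (hM : fullLevels.IsSmooth M) :
    (localLevels q).IsSmooth (Rep.res (primeLocalToGlobal q) M) :=
  isSmooth_res _ hM

end Loc

section LocH1

variable (S : Finset Nat.Primes) (q : ↥S) {K : Type} [Field K] (A : Rep K GQ)

/-- **The Prelude's `H¹`-localisation on level classes is `Dualizing59.H1map`** (followed by the
comparison map to the abstract `H¹` of the local group). -/
theorem locRes_H1ToH1 (x : (globalLevels S).H1 A) :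
    (locRes (extArithLoc S) A (Sum.inr q)).hom ((globalLevels S).H1ToH1 A x) =
      (localLevels q.1).H1ToH1 (Rep.res (primeLocalToGlobal q.1) A)
        (H1map (isCont_local S q.1) (isEquivariant_id q.1 A) x) := by
  obtain ⟨c, rfl⟩ := Submodule.mkQ_surjective _ x
  exact H1π_comp_map_apply (primeLocalToGlobal q.1) (𝟙 (Rep.res (primeLocalToGlobal q.1) A))
    ((globalLevels S).Z₁ToCocycles A c)

/-- The local condition of `sha₁` at `q ∈ S` on a level class: vanishing in the abstract `H¹` of
the local group is vanishing in the local level cohomology. -/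
theorem locRes_H1ToH1_eq_zero_iff (x : (globalLevels S).H1 A) :
    (locRes (extArithLoc S) A (Sum.inr q)).hom ((globalLevels S).H1ToH1 A x) = 0 ↔
      H1map (isCont_local S q.1) (isEquivariant_id q.1 A) x = 0 := by
  rw [locRes_H1ToH1]
  constructor
  · intro h
    exact (localLevels q.1).H1ToH1_injective _ (h.trans (map_zero _).symm)
  · intro h
    rw [h]
    exact map_zero _

end LocH1

end Fermat.Agent.S55.LocDual26.LocalLevels
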