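/-
S55 / 24a-LOC-DUAL20 (helper26), part (B): the module `μ_p` in the Prelude's vocabulary and the
twist bookkeeping.

* `mu p = ofChar (cycloChar p)` : `μ_p` as a `Rep (ZMod p) G_ℚ` (carrier `ZMod p`).
* `cycloChar p` is trivial on the fixing subgroup of `ℚ(ζ_p)`; hence `mu p` and every `dualTwist`
  of a smooth finite-dimensional module are smooth, also for the `S`-levels when `p ∈ S`.
* `eqHom N (mu p)` is the space of invariants of `N.dualTwist (cycloChar p)`; the evaluation pairing
  `N.dualTwist (cycloChar p) × N → mu p` is equivariant and perfect.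
-/
import Fermat.Agent.S55.LocDual26.LocalLevels
import Fermat.Agent.S55.Dualizing59.Main
import Fermat.Agent.S55.UnrKummer72
import Fermat.Prelude.Def_ExtCitation_KummerBridge
import Fermat.Prelude.Def_DualSelmer_ExtConditions

set_option autoImplicit false
set_option linter.style.haveILetI false

open CategoryTheory groupCohomology ExtCitation
open Fermat.Agent.Lib.FrobeniusExists

namespace Fermat.Agent.S55.LocDual26.Mu

open Fermat.Agent.S55.Profin15 Fermat.Agent.S55.Dualizing59
open Fermat.Agent.S55.LocDual26.LocalLevels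

attribute [local instance] isAlgebraic_Qb isAlgClosure_Qb isGalois_Qb

variable (p : ℕ) [Fact p.Prime]

/-- `μ_p` as a representation of `G_ℚ` over `ZMod p`: the one-dimensional space `ZMod p` on which
`g` acts through the mod `p` cyclotomic character. -/
noncomputable abbrev mu : Rep (ZMod p) GQ := ofChar (cycloChar p)

theorem mu_ρ_apply (g : GQ) (x : mu p) :
    (mu p).ρ g x = ((cycloChar p g : (ZMod p)ˣ) : ZMod p) • (x : ZMod p) := rfl

/-! ### The cyclotomic character is trivial on a finite level -/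

theorem exists_primitiveRoot : ∃ ζ : Qb, IsPrimitiveRoot ζ p := by
  haveI : NeZero (p : Qb) := ⟨by exact_mod_cast (Fact.out : p.Prime).ne_zero⟩
  exact HasEnoughRootsOfUnity.exists_primitiveRoot Qb p

theorem cycloChar_eq_one_of_fixes {ζ : Qb} (hζ : IsPrimitiveRoot ζ p) {s : GQ} (hs : s ζ = ζ) :
    cycloChar p s = 1 := by
  haveI : NeZero p := ⟨(Fact.out : p.Prime).ne_zero⟩
  have hp1 : 1 < p := (Fact.out : p.Prime).one_lt
  haveI : Fact (1 < p) := ⟨hp1⟩
  have h1 : (1 : ZMod p) = modularCyclotomicCharacter Qb (card_rootsOfUnity_eq_self p)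
      (s : Qb ≃+* Qb) := by
    apply modularCyclotomicCharacter.unique
    intro t ht
    rw [ZMod.val_one, pow_one]
    have ht' : (t : Qb) ^ p = 1 := by
      have := (mem_rootsOfUnity p t).1 ht
      rw [← Units.val_pow_eq_pow_val, this, Units.val_one]
    obtain ⟨i, _, hi⟩ := hζ.eq_pow_of_pow_eq_one ht'
    show s (t : Qb) = t
    rw [← hi, map_pow, hs]
  apply Units.ext
  exact h1.symm

/-- The cyclotomic character is trivial on the fixing subgroup of `ℚ(ζ_p)`. -/
theorem exists_field_cycloChar_eq_one :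
    ∃ ζ : Qb, ζ ^ p = 1 ∧ ∀ s ∈ (IntermediateField.adjoin ℚ {ζ} :
      IntermediateField ℚ Qb).fixingSubgroup, cycloChar p s = 1 := by
  obtain ⟨ζ, hζ⟩ := exists_primitiveRoot p
  refine ⟨ζ, hζ.pow_eq_one, fun s hs => cycloChar_eq_one_of_fixes p hζ ?_⟩
  exact (IntermediateField.mem_fixingSubgroup_iff _ _).1 hs ζ
    (IntermediateField.mem_adjoin_simple_self ℚ ζ)

theorem finiteDimensional_adjoin_root (ζ : Qb) :
    FiniteDimensional ℚ (IntermediateField.adjoin ℚ {ζ} : IntermediateField ℚ Qb) :=
  IntermediateField.adjoin.finiteDimensional (Algebra.IsIntegral.isIntegral ζ)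

/-- a full level on which the cyclotomic character is trivial -/
theorem exists_fullLevel_cycloChar :
    ∃ U ∈ fullLevels.levels, ∀ s ∈ U, cycloChar p s = 1 := by
  obtain ⟨ζ, _, h⟩ := exists_field_cycloChar_eq_one p
  haveI := finiteDimensional_adjoin_root ζ
  obtain ⟨U, hU, hle⟩ := exists_fullLevel_le (IntermediateField.adjoin ℚ {ζ})
  exact ⟨U, hU, fun s hs => h s (hle hs)⟩

/-- an `S`-level on which the cyclotomic character is trivial (`p ∈ S`) -/
theorem exists_globalLevel_cycloChar (S : Finset Nat.Primes) (hpS : pPrime p ∈ S) :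
    ∃ U ∈ (globalLevels S).levels, ∀ s ∈ U, cycloChar p s = 1 := by
  obtain ⟨ζ, hζ, h⟩ := exists_field_cycloChar_eq_one p
  have hunr : (IntermediateField.adjoin ℚ {ζ} : IntermediateField ℚ Qb).IsUnramifiedOutside S :=
    Fermat.Agent.S55.UnrKummer72.isUnramifiedOutside_rootOfUnity hpS hζ
  obtain ⟨U, hU, hle⟩ := exists_level_le hunr
  exact ⟨U, hU, fun s hs => h s (hle hs)⟩

/-! ### Smoothness of `μ_p` and of dual twists -/

theorem isSmooth_ofChar_of_level {𝒰 : LevelStr GQ}
    (h : ∃ U ∈ 𝒰.levels, ∀ s ∈ U, cycloChar p s = 1) : 𝒰.IsSmooth (mu p) := by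
  obtain ⟨U, hU, hs⟩ := h
  refine fun m => ⟨U, hU, fun s hsU => ?_⟩
  rw [mu_ρ_apply, hs s hsU]
  exact one_smul _ _

theorem mu_isSmooth_full : fullLevels.IsSmooth (mu p) :=
  isSmooth_ofChar_of_level p (exists_fullLevel_cycloChar p)

theorem mu_isSmooth_global (S : Finset Nat.Primes) (hpS : pPrime p ∈ S) :
    (globalLevels S).IsSmooth (mu p) :=
  isSmooth_ofChar_of_level p (exists_globalLevel_cycloChar p S hpS)

/-- A smooth finite-dimensional module is fixed pointwise by a level. -/
theorem exists_level_trivial' {𝒰 : LevelStr GQ} (M : Rep (ZMod p) GQ)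
    [Module.Finite (ZMod p) M] (hM : 𝒰.IsSmooth M) :
    ∃ U ∈ 𝒰.levels, ∀ s ∈ U, ∀ m : M, M.ρ s m = m :=
  exists_level_trivial M hM

/-- The dual twist of a smooth finite-dimensional module is smooth (for any level structure on
which the cyclotomic character is trivial at some level). -/
theorem dualTwist_isSmooth {𝒰 : LevelStr GQ}
    (h : ∃ U ∈ 𝒰.levels, ∀ s ∈ U, cycloChar p s = 1) (M : Rep (ZMod p) GQ)
    [Module.Finite (ZMod p) M] (hM : 𝒰.IsSmooth M) :
    𝒰.IsSmooth (M.dualTwist (cycloChar p)) := by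
  obtain ⟨U, hU, hs⟩ := h
  obtain ⟨U', hU', hM'⟩ := exists_level_trivial' p M hM
  obtain ⟨W, hW, hle⟩ := 𝒰.directed U hU U' hU'
  refine fun f => ⟨W, hW, fun s hsW => ?_⟩
  have hsU : s ∈ U := (hle hsW).1
  have hsU' : s ∈ U' := (hle hsW).2
  rw [Rep.dualTwist_ρ_apply, hs s hsU]
  apply LinearMap.ext
  intro m
  have : M.ρ s⁻¹ m = m := hM' s⁻¹ (U'.inv_mem hsU') m
  simp [this]

theorem dualTwist_isSmooth_full (M : Rep (ZMod p) GQ) [Module.Finite (ZMod p) M]
    (hM : fullLevels.IsSmooth M) : fullLevels.IsSmooth (M.dualTwist (cycloChar p)) :=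
  dualTwist_isSmooth p (exists_fullLevel_cycloChar p) M hM

theorem dualTwist_isSmooth_global (S : Finset Nat.Primes) (hpS : pPrime p ∈ S)
    (M : Rep (ZMod p) GQ) [Module.Finite (ZMod p) M] (hM : (globalLevels S).IsSmooth M) :
    (globalLevels S).IsSmooth (M.dualTwist (cycloChar p)) :=
  dualTwist_isSmooth p (exists_globalLevel_cycloChar p S hpS) M hM

/-! ### `Hom_G(N, μ_p)` and the dual twist -/

section Pairing

variable {G : Type} [Group G] (χ : G →* (ZMod p)ˣ) (N : Rep (ZMod p) G)

/-- a linear form `f : N → ZMod p` is an equivariant map `N → ofChar χ` iff it is an invariant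
vector of `N.dualTwist χ` -/
theorem mem_eqHom_ofChar_iff (f : N →ₗ[ZMod p] ZMod p) :
    (f : N →ₗ[ZMod p] (ofChar χ : Rep (ZMod p) G)) ∈ eqHom N (ofChar χ) ↔
      ∀ g : G, (N.dualTwist χ).ρ g f = f := by
  rw [mem_eqHom_iff]
  constructor
  · intro h g
    rw [Rep.dualTwist_ρ_apply]
    apply LinearMap.ext
    intro n
    have := h g (N.ρ g⁻¹ n)
    rw [← Module.End.mul_apply, ← map_mul, mul_inv_cancel, map_one, Module.End.one_apply] at this
    rw [LinearMap.smul_apply, LinearMap.comp_apply]
    exact this.symm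
  · intro h g n
    have h1 := LinearMap.congr_fun (h g) (N.ρ g n)
    rw [Rep.dualTwist_ρ_apply, LinearMap.smul_apply, LinearMap.comp_apply,
      ← Module.End.mul_apply, ← map_mul, inv_mul_cancel, map_one, Module.End.one_apply] at h1
    exact h1.symm

/-- The evaluation pairing `N.dualTwist χ × N → ofChar χ`, `(f, n) ↦ f n`. -/
def evalPairing : (N.dualTwist χ) →ₗ[ZMod p] N →ₗ[ZMod p] (ofChar χ : Rep (ZMod p) G) :=
  LinearMap.id

theorem evalPairing_apply (f : N.dualTwist χ) (n : N) :
    evalPairing p χ N f n = (f : N →ₗ[ZMod p] ZMod p) n := rfl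

/-- equivariance of the evaluation pairing -/
theorem evalPairing_equivariant (g : G) (f : N.dualTwist χ) (n : N) :
    evalPairing p χ N ((N.dualTwist χ).ρ g f) (N.ρ g n) =
      (ofChar χ : Rep (ZMod p) G).ρ g (evalPairing p χ N f n) := by
  rw [evalPairing_apply, Rep.dualTwist_ρ_apply, LinearMap.smul_apply, LinearMap.comp_apply,
    ← Module.End.mul_apply, ← map_mul, inv_mul_cancel, map_one, Module.End.one_apply]
  rfl

/-- the evaluation pairing is perfect on the left by construction -/
theorem evalPairing_bijective : Function.Bijective (evalPairing p χ N) :=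
  Function.bijective_id

end Pairing

end Fermat.Agent.S55.LocDual26.Mu
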