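/-
S55 / 24a-LOC-DUAL20 (helper26), part (C): local duality in degrees (2,0) in the Prelude's shapes.

For the local Galois group `G_q = Gal(PadicAlgCl q / ℚ_q)` with its level structure `localLevels q`,
the module `μ_p` and an invariant map `inv : H²(G_q, μ_p) → ZMod p` satisfying the base case on the
permutation modules of a cofinal family of levels, the map
`Hom_{G_q}(N, μ_p) → H²(G_q, N)^*`, `φ ↦ inv ∘ H²(φ)` is bijective for every smooth
finite-dimensional `N`, provided `H²(G_q, -)` is right exact (`cd_p(G_q) ≤ 2`).
This is `Dualizing59.theta_bijective` at `G := primeLocalGaloisGroup q`, transported to the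
Prelude's `continuousH2 (primeLocalToGlobal q) N`.
-/
import Fermat.Agent.S55.LocDual26.Mu

set_option autoImplicit false
set_option linter.style.haveILetI false

open CategoryTheory groupCohomology ExtCitation
open Fermat.Agent.Lib.FrobeniusExists

namespace Fermat.Agent.S55.LocDual26.Duality

open Fermat.Agent.S55.Profin15 Fermat.Agent.S55.Dualizing59
open Fermat.Agent.S55.LocDual26.LocalLevels Fermat.Agent.S55.LocDual26.Mu

variable (p : ℕ) [Fact p.Prime] (q : Nat.Primes)

/-- `μ_p` as a representation of the local Galois group at `q`. -/
noncomputable abbrev muLoc : Rep (ZMod p) (primeLocalGaloisGroup q) :=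
  Rep.res (primeLocalToGlobal q) (mu p)

theorem muLoc_isSmooth : (localLevels q).IsSmooth (muLoc p q) :=
  isSmooth_local q (mu p) (mu_isSmooth_full p)

/-- The arithmetic input of local duality in degrees (2,0): an invariant map on `H²(G_q, μ_p)`
for which `theta` is bijective on the permutation modules `k^(G_q/V)`, `V` in a cofinal family of
levels (`⟸ H²(V, μ_p) ≅ ZMod p` through `inv ∘ cor` for the open subgroups `V` fixing `μ_p`). -/
structure LocalInvDatum where
  /-- the invariant map on `H²(G_q, μ_p)` -/
  inv : (localLevels q).H2 (muLoc p q) →ₗ[ZMod p] ZMod p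
  /-- base case of representability -/
  base : ∀ U ∈ (localLevels q).levels, ∃ V ∈ (localLevels q).levels, V ≤ U ∧
    Function.Bijective
      (theta (localLevels q) (muLoc p q) inv (coind (k := ZMod p) V (ZMod p)))

variable {p q}

/-- **Local duality in degrees (2,0)**, level-cohomology form. -/
theorem local_duality (D : LocalInvDatum p q) (hRS : RightExactH2 (ZMod p) (localLevels q))
    (N : Rep (ZMod p) (primeLocalGaloisGroup q)) [Module.Finite (ZMod p) N]
    (hN : (localLevels q).IsSmooth N) :
    Function.Bijective (theta (localLevels q) (muLoc p q) D.inv N) :=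
  theta_bijective (localLevels q) (muLoc p q) D.inv hRS D.base N hN

/-- injectivity needs no exactness hypothesis -/
theorem local_duality_injective (D : LocalInvDatum p q)
    (N : Rep (ZMod p) (primeLocalGaloisGroup q)) [Module.Finite (ZMod p) N]
    (hN : (localLevels q).IsSmooth N) :
    Function.Injective (theta (localLevels q) (muLoc p q) D.inv N) :=
  theta_injective (localLevels q) (muLoc p q) D.inv D.base N hN

/-- `Hom_{G_q}(N, μ_p) ≃ H²(G_q, N)^*` with the Prelude's `continuousH2`. -/
noncomputable def localDualityEquiv (D : LocalInvDatum p q)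
    (hRS : RightExactH2 (ZMod p) (localLevels q))
    (N : Rep (ZMod p) (primeLocalGaloisGroup q)) [Module.Finite (ZMod p) N]
    (hN : (localLevels q).IsSmooth N) :
    eqHom N (muLoc p q) ≃ₗ[ZMod p]
      Module.Dual (ZMod p) (continuousH2 (primeLocalToGlobal q) N) :=
  (LinearEquiv.ofBijective _ (local_duality D hRS N hN)).trans
    (continuousH2Equiv (primeLocalToGlobal q) N).dualMap

theorem localDualityEquiv_apply (D : LocalInvDatum p q)
    (hRS : RightExactH2 (ZMod p) (localLevels q))
    (N : Rep (ZMod p) (primeLocalGaloisGroup q)) [Module.Finite (ZMod p) N]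
    (hN : (localLevels q).IsSmooth N) (φ : eqHom N (muLoc p q))
    (x : continuousH2 (primeLocalToGlobal q) N) :
    localDualityEquiv D hRS N hN φ x =
      D.inv (H2m (localLevels q) φ (continuousH2Equiv (primeLocalToGlobal q) N x)) := rfl

/-- Naturality of local duality in `N`. -/
theorem localDualityEquiv_comp (D : LocalInvDatum p q)
    (hRS : RightExactH2 (ZMod p) (localLevels q))
    (N N' : Rep (ZMod p) (primeLocalGaloisGroup q)) [Module.Finite (ZMod p) N]
    [Module.Finite (ZMod p) N'] (hN : (localLevels q).IsSmooth N)
    (hN' : (localLevels q).IsSmooth N') (φ : eqHom N (muLoc p q)) (π : eqHom N' N)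
    (x : continuousH2 (primeLocalToGlobal q) N') :
    localDualityEquiv D hRS N' hN' (eqComp φ π) x =
      D.inv (H2m (localLevels q) φ (H2m (localLevels q) π
        (continuousH2Equiv (primeLocalToGlobal q) N' x))) := by
  rw [localDualityEquiv_apply, H2m_comp]
  rfl

section Global

variable (S : Finset Nat.Primes) (M : Rep (ZMod p) GQ)

/-- The composite `H²(G_S, M) → H²(G_q, M) → ZMod p` attached to a local equivariant map
`φ : M → μ_p`: in Prelude terms it is `localDualityEquiv φ ∘ locRes₂S`. -/
theorem localDualityEquiv_locRes₂S (D : LocalInvDatum p q)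
    (hRS : RightExactH2 (ZMod p) (localLevels q)) [Module.Finite (ZMod p) M]
    (hM : fullLevels.IsSmooth M)
    (φ : eqHom (Rep.res (primeLocalToGlobal q) M) (muLoc p q)) (x : continuousH2S S M) :
    localDualityEquiv D hRS (Rep.res (primeLocalToGlobal q) M) (isSmooth_local q M hM) φ
        (locRes₂S S M (primeLocalToGlobal q) x) =
      D.inv (H2m (localLevels q) φ
        (H2map (isCont_local S q) (isEquivariant_id q M) (continuousH2SEquiv S M x))) := by
  rw [localDualityEquiv_apply, locRes₂S_eq]

end Global

end Fermat.Agent.S55.LocDual26.Duality
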