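/-
S55 / 24a-LOC-DUAL20 (helper26), part (D): the base case of local duality in degrees (2,0),
generic form.

Let `𝒰` be a level structure on `G`, `Y` a one-dimensional smooth module ("a line") and
`Λ : H²(Y) → k` a NONZERO functional.  If `H²` is right exact (`RightExactH2`), then

* `theta_injective_of_line` : `theta 𝒰 Y Λ N : Hom_G(N, Y) → H²(N)^*` is injective for EVERY smooth
  finite-dimensional `N` (a nonzero map to a line is onto, so `H²` of it is onto);
* `theta_bijective_of_retract` : bijectivity of `theta` passes to retracts;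
* `theta_bijective_of_level` : if `theta` is bijective on the single permutation module `k^(G/V)`,
  it is bijective on every finite-dimensional `N` on which `V` acts trivially (finite-level
  Eilenberg–Watts; no cofinal family of good levels is needed).
-/
import Fermat.Agent.S55.Dualizing59.Main

set_option autoImplicit false
set_option linter.style.haveILetI false

universe u

open CategoryTheory groupCohomology

namespace Fermat.Agent.S55.LocDual26.Base

open Fermat.Agent.S55.Profin15 Fermat.Agent.S55.Dualizing59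

variable {k : Type u} [Field k] {G : Type u} [Group G] (𝒰 : LevelStr G)
variable (Y : Rep k G) (Λ : 𝒰.H2 Y →ₗ[k] k)

/-- `Y` is (at most) a line: every nonzero vector spans. -/
def IsLine (Y : Rep k G) : Prop := ∀ y : Y, y ≠ 0 → ∀ y' : Y, ∃ c : k, c • y = y'

variable {Y}

/-- an equivariant map to a line is zero or onto -/
lemma surjective_of_ne_zero (hline : IsLine Y) {N : Rep k G} (φ : eqHom N Y) (hφ : φ ≠ 0) :
    Function.Surjective φ.1 := by
  have hex : ∃ n, φ.1 n ≠ 0 := by
    by_contra h
    push Not at h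
    exact hφ (Subtype.ext (LinearMap.ext h))
  obtain ⟨n, hn⟩ := hex
  intro y'
  obtain ⟨c, hc⟩ := hline _ hn y'
  exact ⟨c • n, by rw [map_smul, hc]⟩

variable (Y)

/-- **Injectivity of `theta` on all smooth finite-dimensional modules**, for a line `Y`, a nonzero
`Λ` and a right exact `H²`. -/
theorem theta_injective_of_line (hRS : RightExactH2 k 𝒰) [Module.Finite k Y]
    (hY : 𝒰.IsSmooth Y) (hline : IsLine Y) (hΛ : Λ ≠ 0)
    (N : Rep k G) [Module.Finite k N] (hN : 𝒰.IsSmooth N) :
    Function.Injective (theta 𝒰 Y Λ N) := by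
  rw [injective_iff_map_eq_zero]
  intro φ hφ
  by_contra hne
  have hsurj := surjective_of_ne_zero hline φ hne
  have hH := hRS N Y inferInstance inferInstance hN hY φ hsurj
  apply hΛ
  apply LinearMap.ext
  intro y
  obtain ⟨x, rfl⟩ := hH y
  have := LinearMap.congr_fun hφ x
  simpa using this

/-- Bijectivity of `theta` passes to retracts. -/
theorem theta_bijective_of_retract {P Q : Rep k G} (i : eqHom Q P) (r : eqHom P Q)
    (hri : ∀ x, r.1 (i.1 x) = x) (hP : Function.Bijective (theta 𝒰 Y Λ P)) :
    Function.Bijective (theta 𝒰 Y Λ Q) := by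
  have hcomp : eqComp r i = eqId Q := Subtype.ext (LinearMap.ext hri)
  have hH : H2m 𝒰 r ∘ₗ H2m 𝒰 i = LinearMap.id := by
    rw [← H2m_comp, hcomp, H2m_id]
  constructor
  · rw [injective_iff_map_eq_zero]
    intro φ hφ
    have h1 : theta 𝒰 Y Λ P (eqComp φ r) = 0 := by
      rw [theta_comp, hφ, LinearMap.zero_comp]
    have h0 := (injective_iff_map_eq_zero _).1 hP.1 _ h1
    apply Subtype.ext
    apply LinearMap.ext
    intro x
    have := congrArg (fun ψ : eqHom P Y => ψ.1 (i.1 x)) h0
    simpa [eqComp, hri] using this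
  · intro ℓ
    obtain ⟨ψ, hψ⟩ := hP.2 (ℓ ∘ₗ H2m 𝒰 r)
    refine ⟨eqComp ψ i, ?_⟩
    rw [theta_comp, hψ, LinearMap.comp_assoc, hH, LinearMap.comp_id]

/-- **Finite-level representability**: if `theta` is injective on all smooth finite-dimensional
modules and bijective on the permutation module `k^(G/V)` of ONE level `V`, then it is bijective
on every finite-dimensional module on which `V` acts trivially. -/
theorem theta_bijective_of_level (hRS : RightExactH2 k 𝒰)
    (hinj : ∀ (N : Rep k G) [Module.Finite k N], 𝒰.IsSmooth N →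
      Function.Injective (theta 𝒰 Y Λ N))
    {V : Subgroup G} (hV : V ∈ 𝒰.levels)
    (hgood : Function.Bijective (theta 𝒰 Y Λ (coind (k := k) V k)))
    (N : Rep k G) [Module.Finite k N] (htriv : ∀ s ∈ V, ∀ n : N, N.ρ s n = n) :
    Function.Bijective (theta 𝒰 Y Λ N) := by
  have hN : 𝒰.IsSmooth N := fun n => ⟨V, hV, fun s hs => htriv s hs n⟩
  refine ⟨hinj N hN, ?_⟩
  haveI := 𝒰.finiteIndex V hV
  haveI : Finite (G ⧸ V) := Subgroup.finite_quotient_of_finiteIndex
  letI := Fintype.ofFinite (G ⧸ V)
  have hPsm : 𝒰.IsSmooth (coind (k := k) V N) := coind_isSmooth 𝒰 hV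
  have hKsm : 𝒰.IsSmooth (kerObj (cover htriv)) := kerObj_isSmooth _ 𝒰 hPsm
  exact theta_surjective_of_cover 𝒰 Y Λ (cover htriv) (cover_surjective htriv)
    (kerIncl (cover htriv)) (exists_kerIncl_eq _) (pi_kerIncl _)
    (theta_bijective_coind 𝒰 Y Λ N hgood).2
    (hinj _ hKsm)
    (hRS _ _ inferInstance inferInstance hPsm hN _ (cover_surjective htriv))

end Fermat.Agent.S55.LocDual26.Base
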