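/-
S55 / 24a-LOC-DUAL20 (helper26), part (D2): the permutation module `k[G/U]` restricted to a
subgroup-like `r : H →* G`, and the count which makes `theta` bijective on it.

For `U ⊴ G` of finite index, `Y : Rep k G` a line on which `U` acts trivially, `ζ ≠ 0` in `Y`:
every function `c` on the double cosets `r(H)\G/U` gives an `H`-equivariant map
`k[G/U] → Y`, `δ_{gU} ↦ c(r(H) g U) • (g • ζ)`; these are linearly independent.  Hence
`dim Hom_H(k[G/U], Y) ≥ #(r(H)\G/U)`, and as soon as `theta` is injective and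
`dim H²(H, k[G/U]) ≤ #(r(H)\G/U)`, `theta` is bijective on `Res k[G/U]`.
The local permutation module `k^(H/r⁻¹U)` is a retract of `Res k[G/U]`.
-/
import Fermat.Agent.S55.LocDual26.Base
import Mathlib.GroupTheory.DoubleCoset

set_option autoImplicit false
set_option linter.style.haveILetI false

universe u

open CategoryTheory groupCohomology

namespace Fermat.Agent.S55.LocDual26.PermCount

open Fermat.Agent.S55.Profin15 Fermat.Agent.S55.Dualizing59 Fermat.Agent.S55.LocDual26.Base

variable {k : Type u} [Field k] {G H : Type u} [Group G] [Group H]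
variable (r : H →* G) (U : Subgroup G)

/-- the permutation module `k[G/U]`, restricted along `r : H →* G` -/
noncomputable abbrev permRes : Rep k H := Rep.res r (Rep.ofMulAction k G (G ⧸ U))

lemma permRes_ρ_single (h : H) (x : G ⧸ U) (a : k) :
    (permRes (k := k) r U).ρ h (MonoidAlgebra.single x a) = MonoidAlgebra.single (r h • x) a :=
  Representation.ofMulAction_single (r h) x a

lemma permRes_ρ_coeff (h : H) (ξ : permRes (k := k) r U) (x : G ⧸ U) :
    MonoidAlgebra.coeff ((permRes (k := k) r U).ρ h ξ) x =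
      MonoidAlgebra.coeff (show MonoidAlgebra k (G ⧸ U) from ξ) ((r h)⁻¹ • x) :=
  Representation.coeff_ofMulAction (r h) ξ x

/-- the double coset `r(H) g U` of a coset `g U` -/
noncomputable def dcOf (x : G ⧸ U) : DoubleCoset.Quotient (r.range : Set G) (U : Set G) :=
  DoubleCoset.mk r.range U (Quotient.out x)

lemma dcOf_mk (g : G) : dcOf r U (g : G ⧸ U) = DoubleCoset.mk r.range U g := by
  rw [dcOf, DoubleCoset.eq]
  refine ⟨1, one_mem _, (Quotient.out (g : G ⧸ U))⁻¹ * g, ?_, by group⟩
  exact QuotientGroup.eq.1 (QuotientGroup.out_eq' _)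

lemma dcOf_smul (h : H) (x : G ⧸ U) : dcOf r U (r h • x) = dcOf r U x := by
  induction x using QuotientGroup.induction_on with
  | H g =>
    have : r h • (g : G ⧸ U) = ((r h * g : G) : G ⧸ U) := rfl
    rw [this, dcOf_mk, dcOf_mk, DoubleCoset.eq]
    exact ⟨(r h)⁻¹, inv_mem ⟨h, rfl⟩, 1, one_mem _, by group⟩

lemma dcOf_surjective : Function.Surjective (dcOf r U) := by
  intro d
  induction d using Quotient.inductionOn' with
  | h g => exact ⟨(g : G ⧸ U), dcOf_mk r U g⟩

instance [Finite (G ⧸ U)] : Finite (DoubleCoset.Quotient (r.range : Set G) (U : Set G)) :=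
  Finite.of_surjective _ (dcOf_surjective r U)

section twist

variable {U} (Y : Rep.{u} k G) (hYU : ∀ s ∈ U, ∀ y : Y, Y.ρ s y = y) (ζ : Y)

/-- `gU ↦ g • ζ` -/
noncomputable def tw (x : G ⧸ U) : Y := Y.ρ (Quotient.out x) ζ

include hYU in
lemma tw_mk (g : G) : tw Y ζ (g : G ⧸ U) = Y.ρ g ζ :=
  rho_eq_of_coset_eq hYU (QuotientGroup.out_eq' _) ζ

include hYU in
lemma tw_smul (g : G) (x : G ⧸ U) : tw Y ζ (g • x) = Y.ρ g (tw Y ζ x) := by
  induction x using QuotientGroup.induction_on with
  | H a =>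
    have : g • (a : G ⧸ U) = ((g * a : G) : G ⧸ U) := rfl
    rw [this, tw_mk Y hYU, tw_mk Y hYU, map_mul, Module.End.mul_apply]

lemma tw_ne_zero (hζ : ζ ≠ 0) (x : G ⧸ U) : tw Y ζ x ≠ 0 := by
  intro h
  apply hζ
  have := congrArg (Y.ρ (Quotient.out x)⁻¹) h
  rwa [tw, ← Module.End.mul_apply, ← map_mul, inv_mul_cancel, map_one, Module.End.one_apply,
    map_zero] at this

variable (U)

/-- the values on the basis of the map attached to a function on double cosets -/
noncomputable def orbitVals :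
    (DoubleCoset.Quotient (r.range : Set G) (U : Set G) → k) →ₗ[k] ((G ⧸ U) → Y) where
  toFun c x := c (dcOf r U x) • tw Y ζ x
  map_add' c c' := by
    funext x
    show (c + c') (dcOf r U x) • tw Y ζ x = c (dcOf r U x) • tw Y ζ x + c' (dcOf r U x) • tw Y ζ x
    rw [Pi.add_apply, add_smul]
  map_smul' a c := by
    funext x
    show (a • c) (dcOf r U x) • tw Y ζ x = a • c (dcOf r U x) • tw Y ζ x
    rw [Pi.smul_apply, smul_eq_mul, mul_smul]

/-- `δ_{gU} ↦ c(r(H) g U) • (g • ζ)` as a linear map -/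
noncomputable def orbitLin :
    (DoubleCoset.Quotient (r.range : Set G) (U : Set G) → k) →ₗ[k]
      (MonoidAlgebra k (G ⧸ U) →ₗ[k] Y) :=
  ((MonoidAlgebra.basis (G ⧸ U) k).constr k).toLinearMap ∘ₗ orbitVals r U Y ζ

lemma orbitLin_single (c : DoubleCoset.Quotient (r.range : Set G) (U : Set G) → k) (x : G ⧸ U) :
    orbitLin r U Y ζ c (MonoidAlgebra.single x 1) = c (dcOf r U x) • tw Y ζ x := by
  have := (MonoidAlgebra.basis (G ⧸ U) k).constr_basis k (orbitVals r U Y ζ c) x
  rw [MonoidAlgebra.basis_apply] at this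
  exact this

include hYU in
lemma orbitLin_mem (c : DoubleCoset.Quotient (r.range : Set G) (U : Set G) → k) :
    (orbitLin r U Y ζ c : permRes (k := k) r U →ₗ[k] (Rep.res r Y : Rep k H)) ∈
      eqHom (permRes (k := k) r U) (Rep.res r Y) := by
  intro h ξ
  have key : (orbitLin r U Y ζ c) ∘ₗ ((permRes (k := k) r U).ρ h) =
      (Y.ρ (r h)) ∘ₗ (orbitLin r U Y ζ c) := by
    refine (MonoidAlgebra.basis (G ⧸ U) k).ext fun x => ?_
    rw [MonoidAlgebra.basis_apply, LinearMap.comp_apply, LinearMap.comp_apply,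
      permRes_ρ_single, orbitLin_single, orbitLin_single, dcOf_smul, tw_smul Y hYU, map_smul]
  exact LinearMap.congr_fun key ξ

/-- `c ↦ (δ_{gU} ↦ c(r(H) g U) • (g • ζ))`, into the `H`-equivariant maps -/
noncomputable def orbitHom :
    (DoubleCoset.Quotient (r.range : Set G) (U : Set G) → k) →ₗ[k]
      eqHom (permRes (k := k) r U) (Rep.res r Y) :=
  LinearMap.codRestrict (eqHom (permRes (k := k) r U) (Rep.res r Y)) (orbitLin r U Y ζ)
    (orbitLin_mem r U Y hYU ζ)

lemma orbitHom_single (c : DoubleCoset.Quotient (r.range : Set G) (U : Set G) → k) (x : G ⧸ U) :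
    (orbitHom r U Y hYU ζ c).1 (MonoidAlgebra.single x 1) = c (dcOf r U x) • tw Y ζ x :=
  orbitLin_single r U Y ζ c x

lemma orbitHom_injective (hζ : ζ ≠ 0) : Function.Injective (orbitHom r U Y hYU ζ) := by
  rw [injective_iff_map_eq_zero]
  intro c hc
  funext d
  obtain ⟨x, rfl⟩ := dcOf_surjective r U d
  have h1 := orbitHom_single r U Y hYU ζ c x
  rw [hc] at h1
  have h2 : c (dcOf r U x) • tw Y ζ x = 0 := h1.symm.trans rfl
  rcases smul_eq_zero.1 h2 with h | h
  · exact h
  · exact (tw_ne_zero Y ζ hζ x h).elim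

end twist

section count

variable [Finite (G ⧸ U)]

instance : Module.Finite k (permRes (k := k) r U) :=
  Module.Finite.of_basis (MonoidAlgebra.basis (G ⧸ U) k)

omit [Finite (G ⧸ U)] in
lemma permRes_ρ_of_mem [U.Normal] {s : H} (hs : s ∈ U.comap r) (ξ : permRes (k := k) r U) :
    (permRes (k := k) r U).ρ s ξ = ξ := by
  have key : (permRes (k := k) r U).ρ s = LinearMap.id := by
    refine (MonoidAlgebra.basis (G ⧸ U) k).ext fun x => ?_
    have hs' : r s ∈ U := hs
    rw [MonoidAlgebra.basis_apply, permRes_ρ_single, smul_coset_eq_of_mem hs', LinearMap.id_apply]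
  rw [key, LinearMap.id_apply]

variable {U} (𝒱 : LevelStr H) (Y : Rep.{u} k G) (hYU : ∀ s ∈ U, ∀ y : Y, Y.ρ s y = y)
  (Λ : 𝒱.H2 (Rep.res r Y) →ₗ[k] k)

include hYU in
/-- **The count**: if `theta` is injective on `Res k[G/U]` and
`dim H²(H, Res k[G/U]) ≤ #(r(H)\G/U)`, then `theta` is bijective on `Res k[G/U]`. -/
theorem theta_bijective_permRes {ζ : Y} (hζ : ζ ≠ 0)
    (hinj : Function.Injective (theta 𝒱 (Rep.res r Y) Λ (permRes (k := k) r U)))
    [Module.Finite k (𝒱.H2 (permRes (k := k) r U))]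
    (hdim : Module.finrank k (𝒱.H2 (permRes (k := k) r U)) ≤
      Nat.card (DoubleCoset.Quotient (r.range : Set G) (U : Set G))) :
    Function.Bijective (theta 𝒱 (Rep.res r Y) Λ (permRes (k := k) r U)) := by
  classical
  refine ⟨hinj, ?_⟩
  letI := Fintype.ofFinite (DoubleCoset.Quotient (r.range : Set G) (U : Set G))
  set Θ := theta 𝒱 (Rep.res r Y) Λ (permRes (k := k) r U) ∘ₗ orbitHom r U Y hYU ζ with hΘ
  have hΘinj : Function.Injective Θ := hinj.comp (orbitHom_injective r U Y hYU ζ hζ)
  have h1 : Module.finrank k (DoubleCoset.Quotient (r.range : Set G) (U : Set G) → k) =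
      Nat.card (DoubleCoset.Quotient (r.range : Set G) (U : Set G)) := by
    rw [Module.finrank_fintype_fun_eq_card, Nat.card_eq_fintype_card]
  have h2 : Module.finrank k (Module.Dual k (𝒱.H2 (permRes (k := k) r U))) =
      Module.finrank k (𝒱.H2 (permRes (k := k) r U)) := Subspace.dual_finrank_eq
  have h3 := LinearMap.finrank_le_finrank_of_injective hΘinj
  have heq : Module.finrank k (DoubleCoset.Quotient (r.range : Set G) (U : Set G) → k) =
      Module.finrank k (Module.Dual k (𝒱.H2 (permRes (k := k) r U))) := by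
    omega
  have hsurj : Function.Surjective Θ :=
    (LinearMap.injective_iff_surjective_of_finrank_eq_finrank heq).1 hΘinj
  intro ℓ
  obtain ⟨c, hc⟩ := hsurj ℓ
  exact ⟨orbitHom r U Y hYU ζ c, hc⟩

end count

section retract

/-- the map `H/r⁻¹U → G/U` induced by `r` -/
def quotMap : H ⧸ U.comap r → G ⧸ U :=
  Quotient.map' r (fun a b hab => by
    rw [QuotientGroup.leftRel_apply] at hab ⊢
    have h : r (a⁻¹ * b) ∈ U := hab
    simpa using h)

lemma quotMap_mk (h : H) : quotMap r U (h : H ⧸ U.comap r) = ((r h : G) : G ⧸ U) := rfl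

lemma quotMap_injective : Function.Injective (quotMap r U) := by
  intro x y
  induction x using QuotientGroup.induction_on with
  | H a =>
    induction y using QuotientGroup.induction_on with
    | H b =>
      intro hab
      rw [quotMap_mk, quotMap_mk, QuotientGroup.eq] at hab
      rw [QuotientGroup.eq]
      show r (a⁻¹ * b) ∈ U
      simpa using hab

lemma quotMap_smul (h : H) (x : H ⧸ U.comap r) : quotMap r U (h • x) = r h • quotMap r U x := by
  induction x using QuotientGroup.induction_on with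
  | H a =>
    have h1 : h • (a : H ⧸ U.comap r) = ((h * a : H) : H ⧸ U.comap r) := rfl
    have h2 : r h • ((r a : G) : G ⧸ U) = ((r h * r a : G) : G ⧸ U) := rfl
    rw [h1, quotMap_mk, quotMap_mk, h2, map_mul]

instance [Finite (G ⧸ U)] : Finite (H ⧸ U.comap r) :=
  Finite.of_injective _ (quotMap_injective r U)

variable [Fintype (H ⧸ U.comap r)]

/-- `f ↦ ∑ₓ f(x) δ_{r x}` -/
noncomputable def inclLin : ((H ⧸ U.comap r) → k) →ₗ[k] MonoidAlgebra k (G ⧸ U) :=
  ∑ x : H ⧸ U.comap r, (MonoidAlgebra.lsingle (quotMap r U x)) ∘ₗ LinearMap.proj x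

lemma inclLin_apply (f : (H ⧸ U.comap r) → k) :
    inclLin (k := k) r U f = ∑ x : H ⧸ U.comap r, MonoidAlgebra.single (quotMap r U x) (f x) := by
  simp [inclLin, LinearMap.sum_apply]

omit [Fintype (H ⧸ U.comap r)] in
/-- `ξ ↦ (x ↦ ξ(r x))` -/
noncomputable def projLin : MonoidAlgebra k (G ⧸ U) →ₗ[k] ((H ⧸ U.comap r) → k) :=
  LinearMap.pi fun x =>
    (Finsupp.lapply (quotMap r U x)) ∘ₗ (MonoidAlgebra.coeffLinearEquiv k).toLinearMap

omit [Fintype (H ⧸ U.comap r)] in
lemma projLin_apply (ξ : MonoidAlgebra k (G ⧸ U)) (x : H ⧸ U.comap r) :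
    projLin (k := k) r U ξ x = ξ.coeff (quotMap r U x) := rfl

lemma projLin_inclLin (f : (H ⧸ U.comap r) → k) : projLin r U (inclLin r U f) = f := by
  classical
  funext x
  rw [projLin_apply, inclLin_apply, MonoidAlgebra.coeff_sum, Finsupp.finsetSum_apply,
    Finset.sum_eq_single x]
  · rw [MonoidAlgebra.coeff_single, Finsupp.single_eq_same]
  · intro y _ hy
    rw [MonoidAlgebra.coeff_single, Finsupp.single_eq_of_ne]
    exact fun h => hy (quotMap_injective r U h).symm
  · intro h
    exact (h (Finset.mem_univ _)).elim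

lemma inclLin_smul (h : H) (f : (H ⧸ U.comap r) → k) :
    inclLin (k := k) r U (fun x => f (h⁻¹ • x)) = (permRes (k := k) r U).ρ h (inclLin r U f) := by
  rw [inclLin_apply, inclLin_apply, map_sum]
  refine Fintype.sum_equiv (MulAction.toPerm h⁻¹) _ _ fun x => ?_
  rw [permRes_ρ_single, MulAction.toPerm_apply, ← quotMap_smul, smul_inv_smul]

lemma inclLin_mem :
    (inclLin (k := k) r U : coind (k := k) (U.comap r) k →ₗ[k] permRes (k := k) r U) ∈
      eqHom (coind (k := k) (U.comap r) k) (permRes (k := k) r U) := by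
  intro h f
  exact inclLin_smul r U h f

omit [Fintype (H ⧸ U.comap r)] in
lemma projLin_mem :
    (projLin (k := k) r U : permRes (k := k) r U →ₗ[k] coind (k := k) (U.comap r) k) ∈
      eqHom (permRes (k := k) r U) (coind (k := k) (U.comap r) k) := by
  intro h ξ
  funext x
  show projLin r U ((permRes (k := k) r U).ρ h ξ) x =
    (coind (k := k) (U.comap r) k).ρ h (projLin r U ξ) x
  rw [projLin_apply, coind_ρ_apply, projLin_apply, quotMap_smul, map_inv]
  exact permRes_ρ_coeff r U h ξ _

/-- the local permutation module is a retract of the restricted global one: inclusion -/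
noncomputable def incl : eqHom (coind (k := k) (U.comap r) k) (permRes (k := k) r U) :=
  ⟨inclLin r U, inclLin_mem r U⟩

omit [Fintype (H ⧸ U.comap r)] in
/-- the local permutation module is a retract of the restricted global one: projection -/
noncomputable def proj : eqHom (permRes (k := k) r U) (coind (k := k) (U.comap r) k) :=
  ⟨projLin r U, projLin_mem r U⟩

lemma proj_incl (f : coind (k := k) (U.comap r) k) : (proj r U).1 ((incl r U).1 f) = f :=
  projLin_inclLin r U f

end retract

section main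

variable {U} [U.Normal] [Finite (G ⧸ U)] (𝒱 : LevelStr H) (Y : Rep.{u} k G)
  (Λ : 𝒱.H2 (Rep.res r Y) →ₗ[k] k)

/-- the base case on the local permutation module `k^(H/r⁻¹U)` -/
theorem theta_bijective_coind_of_perm_count
    (hRS : RightExactH2 k 𝒱) (hV : U.comap r ∈ 𝒱.levels)
    [Module.Finite k Y] (hline : IsLine Y) {ζ : Y} (hζ : ζ ≠ 0)
    (hYU : ∀ s ∈ U, ∀ y : Y, Y.ρ s y = y) (hΛ : Λ ≠ 0)
    [Module.Finite k (𝒱.H2 (permRes (k := k) r U))]
    (hdim : Module.finrank k (𝒱.H2 (permRes (k := k) r U)) ≤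
      Nat.card (DoubleCoset.Quotient (r.range : Set G) (U : Set G))) :
    Function.Bijective (theta 𝒱 (Rep.res r Y) Λ (coind (k := k) (U.comap r) k)) := by
  haveI : Module.Finite k (Rep.res r Y : Rep k H) := inferInstanceAs (Module.Finite k Y)
  have hYsm : 𝒱.IsSmooth (Rep.res r Y) := fun y => ⟨U.comap r, hV, fun s hs => hYU (r s) hs y⟩
  have hPsm : 𝒱.IsSmooth (permRes (k := k) r U) :=
    fun ξ => ⟨U.comap r, hV, fun s hs => permRes_ρ_of_mem r U hs ξ⟩
  have hP := theta_bijective_permRes r 𝒱 Y hYU Λ hζ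
    (theta_injective_of_line 𝒱 (Rep.res r Y) Λ hRS hYsm hline hΛ _ hPsm) hdim
  letI := Fintype.ofFinite (H ⧸ U.comap r)
  exact theta_bijective_of_retract 𝒱 _ Λ (incl r U) (proj r U) (proj_incl r U) hP

/-- **Local duality in degrees (2,0) at one level, from the count.**  `Y` a line with trivial
`U`-action, `Λ ≠ 0` on `H²(H, Res Y)`, `H²(H, -)` right exact and
`dim H²(H, Res k[G/U]) ≤ #(r(H)\G/U)`: then `Hom_H(N, Res Y) → H²(H, N)^*` is bijective for every
finite-dimensional `N` on which `r⁻¹U` acts trivially. -/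
theorem theta_bijective_of_perm_count
    (hRS : RightExactH2 k 𝒱) (hV : U.comap r ∈ 𝒱.levels)
    [Module.Finite k Y] (hline : IsLine Y) {ζ : Y} (hζ : ζ ≠ 0)
    (hYU : ∀ s ∈ U, ∀ y : Y, Y.ρ s y = y) (hΛ : Λ ≠ 0)
    [Module.Finite k (𝒱.H2 (permRes (k := k) r U))]
    (hdim : Module.finrank k (𝒱.H2 (permRes (k := k) r U)) ≤
      Nat.card (DoubleCoset.Quotient (r.range : Set G) (U : Set G)))
    (N : Rep k H) [Module.Finite k N] (htriv : ∀ s ∈ U.comap r, ∀ n : N, N.ρ s n = n) :
    Function.Bijective (theta 𝒱 (Rep.res r Y) Λ N) := by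
  haveI : Module.Finite k (Rep.res r Y : Rep k H) := inferInstanceAs (Module.Finite k Y)
  have hYsm : 𝒱.IsSmooth (Rep.res r Y) := fun y => ⟨U.comap r, hV, fun s hs => hYU (r s) hs y⟩
  exact theta_bijective_of_level 𝒱 (Rep.res r Y) Λ hRS
    (fun N _ hN => theta_injective_of_line 𝒱 (Rep.res r Y) Λ hRS hYsm hline hΛ N hN) hV
    (theta_bijective_coind_of_perm_count r 𝒱 Y Λ hRS hV hline hζ hYU hΛ hdim) N htriv

end main

end Fermat.Agent.S55.LocDual26.PermCount
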