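/-
S55 / 24a-LOC-DUAL20 (helper26), part (D3): LOCAL DUALITY IN DEGREES (2,0) FROM THE LITERAL PLUGS
of `Contract34` (step (i) of the blueprint, leaf T3).

For `q ∈ S`, `p ∈ S`, from
* (P2) `Contract34.LocalRightExact p q`,
* (P5) `Contract34.LocalDim p S`,
* a NONZERO functional `lam` on `H²(G_q, μ_p)` (e.g. the `lam q` of (P3P4) `Reciprocity`),
the map `Hom_{G_q}(N, μ_p) → H²(G_q, N)^*`, `φ ↦ lam ∘ H²(φ)` is bijective for every
finite-dimensional `G_q`-module `N` trivialised by `r_q⁻¹(U)`, `U` an `S`-level; in particular for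
`N = Res M`, `M` an `S`-representation of `G_ℚ`.  `H²` is the TRUE local cohomology
(`localLevels q` = all finite levels of `G_ℚ` pulled back, `= Profin15.pullLevels r_q`), although
only `S`-levels occur in the hypotheses: no cofinality of the `S`-levels is needed.
-/
import Fermat.Agent.S55.LocDual26.PermCount
import Fermat.Agent.S55.LocDual26.Duality
import Fermat.Agent.S55.Profin15.Contract
import Fermat.Agent.S55.Wire41.ShaMap

set_option autoImplicit false
set_option linter.style.haveILetI false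

open CategoryTheory groupCohomology ExtCitation
open Fermat.Agent.Lib.FrobeniusExists

namespace Fermat.Agent.S55.LocDual26.Plugs

open Fermat.Agent.S55.Profin15 Fermat.Agent.S55.Dualizing59
open Fermat.Agent.S55.LocDual26.LocalLevels Fermat.Agent.S55.LocDual26.Mu
open Fermat.Agent.S55.LocDual26.Duality Fermat.Agent.S55.LocDual26.Base
open Fermat.Agent.S55.LocDual26.PermCount

variable (p : ℕ) [Fact p.Prime]

section RightExact

variable (q : Nat.Primes)

/-- a smooth finite-dimensional module of the local group is an `IsLocRep` -/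
theorem isLocRep_of_isSmooth (N : Rep.{0} (ZMod p) (primeLocalGaloisGroup q))
    [Module.Finite (ZMod p) N] (hN : (localLevels q).IsSmooth N) : Contract34.IsLocRep p q N := by
  obtain ⟨V, hV, htriv⟩ := exists_level_trivial N hN
  obtain ⟨U, ⟨_, F, hF, rfl⟩, rfl⟩ := hV
  exact ⟨F, hF, fun h hh => LinearMap.ext fun n => htriv h hh n⟩

/-- (P2) in the `Dualizing59` form. -/
theorem rightExactH2_of_localRightExact (h : Contract34.LocalRightExact p q) :
    RightExactH2 (ZMod p) (localLevels q) := by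
  have hL := (Profin15.Plug.localRightExact_iff p q).1 h
  intro P N hPf hNf hP hN π hπ
  haveI := hPf
  haveI := hNf
  let g : P ⟶ N := Rep.ofHom (ρ := P.ρ) (σ := N.ρ) ⟨π.1, fun g => LinearMap.ext (π.2 g)⟩
  have hg := hL P N (isLocRep_of_isSmooth p q P hP) (isLocRep_of_isSmooth p q N hN) g hπ
  intro y
  obtain ⟨x, hx⟩ := hg y
  refine ⟨x, ?_⟩
  rw [← hx]
  obtain ⟨z, rfl⟩ := Submodule.mkQ_surjective _ x
  rfl

end RightExact

section Main

variable (S : Finset Nat.Primes)

theorem isLine_mu : IsLine (mu p) := by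
  intro y hy y'
  have hy' : (y : ZMod p) ≠ 0 := hy
  refine ⟨(y' : ZMod p) * (y : ZMod p)⁻¹, ?_⟩
  show ((y' : ZMod p) * (y : ZMod p)⁻¹) * (y : ZMod p) = y'
  rw [mul_assoc, inv_mul_cancel₀ hy', mul_one]

theorem mu_ρ_eq_one_of_cycloChar {s : GQ} (hs : cycloChar p s = 1) : (mu p).ρ s = 1 := by
  apply LinearMap.ext
  intro y
  rw [mu_ρ_apply, hs]
  simp

/-- **Local duality in degrees (2,0) from the literal plugs** (P2), (P5) and a nonzero functional
on `H²(G_q, μ_p)`: for every finite-dimensional `G_q`-module `N` trivialised by the preimage of an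
`S`-level. -/
theorem local_duality_of_plugs (hpS : pPrime p ∈ S) (q : ↥S)
    (hP2 : Contract34.LocalRightExact p q.1) (hP5 : Contract34.LocalDim p S)
    (lam : (localLevels q.1).H2 (muLoc p q.1) →ₗ[ZMod p] ZMod p) (hlam : lam ≠ 0)
    (N : Rep.{0} (ZMod p) (primeLocalGaloisGroup q.1)) [Module.Finite (ZMod p) N]
    (hN : ∃ U ∈ (globalLevels S).levels,
      ∀ s : primeLocalGaloisGroup q.1, primeLocalToGlobal q.1 s ∈ U → ∀ n : N, N.ρ s n = n) :
    Function.Bijective (theta (localLevels q.1) (muLoc p q.1) lam N) := by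
  obtain ⟨U₁, hU₁, hN₁⟩ := hN
  obtain ⟨U₂, hU₂, hμ₂⟩ := exists_globalLevel_cycloChar p S hpS
  obtain ⟨W, hW, hWle⟩ := (globalLevels S).directed U₁ hU₁ U₂ hU₂
  haveI := (globalLevels S).normal W hW
  haveI := (globalLevels S).finiteIndex W hW
  haveI : Finite (GQ ⧸ W) := Subgroup.finite_quotient_of_finiteIndex
  have hμW : ∀ s ∈ W, (Contract34.mu p).ρ s = 1 := fun s hs =>
    mu_ρ_eq_one_of_cycloChar p (hμ₂ s (hWle hs).2)
  obtain ⟨hfin, hdim⟩ := (Profin15.Plug.localDim_iff p S).1 hP5 q W hW hμW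
  haveI : Module.Finite (ZMod p) ((localLevels q.1).H2
      (permRes (k := ZMod p) (primeLocalToGlobal q.1) W)) := hfin
  haveI : Module.Finite (ZMod p) (mu p) := inferInstanceAs (Module.Finite (ZMod p) (ZMod p))
  have hone : ((1 : ZMod p) : mu p) ≠ 0 := one_ne_zero (α := ZMod p)
  exact theta_bijective_of_perm_count (primeLocalToGlobal q.1) (localLevels q.1) (mu p) lam
    (rightExactH2_of_localRightExact p q.1 hP2)
    ⟨W, globalLevels_le_fullLevels S hW, rfl⟩ (isLine_mu p) hone
    (fun s hs y => by rw [hμW s hs]; rfl) hlam hdim N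
    (fun s hs n => hN₁ s ((hWle hs).1) n)

/-- the case `N = Res M`, `M` an `S`-representation of `G_ℚ` -/
theorem local_duality_res_of_plugs (hpS : pPrime p ∈ S) (q : ↥S)
    (hP2 : Contract34.LocalRightExact p q.1) (hP5 : Contract34.LocalDim p S)
    (lam : (localLevels q.1).H2 (muLoc p q.1) →ₗ[ZMod p] ZMod p) (hlam : lam ≠ 0)
    (M : Rep.{0} (ZMod p) GQ) [Module.Finite (ZMod p) M] (hM : Contract34.IsSRep p S M) :
    Function.Bijective (theta (localLevels q.1) (muLoc p q.1) lam
      (Rep.res (primeLocalToGlobal q.1) M)) := by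
  haveI : Module.Finite (ZMod p) (Rep.res (primeLocalToGlobal q.1) M :
      Rep (ZMod p) (primeLocalGaloisGroup q.1)) := inferInstanceAs (Module.Finite (ZMod p) M)
  obtain ⟨U, hU, hMU⟩ := hM
  refine local_duality_of_plugs p S hpS q hP2 hP5 lam hlam _ ⟨U, hU, fun s hs n => ?_⟩
  show M.ρ (primeLocalToGlobal q.1 s) n = n
  rw [hMU _ hs]
  rfl

/-- **The local inputs of the W59 assembly from the literal plugs** (P2), (P3P4), (P5):
invariant maps `lam q` on `H²(G_q, μ_p)` (`q ∈ S`) whose sum kills the global classes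
(`hrec` of `Dualizing59.exists_isTrace`), and for which local duality in degrees (2,0) holds for
the restriction of every `S`-representation (`hloc` of `Dualizing59.sha_duality`). -/
theorem exists_lam_of_plugs (hpS : pPrime p ∈ S)
    (hP2 : ∀ q ∈ S, Contract34.LocalRightExact p q) (hP34 : Contract34.Reciprocity p S)
    (hP5 : Contract34.LocalDim p S) :
    ∃ lam : ∀ q : ↥S, (pullLevels (primeLocalToGlobal q.1)).H2
        (Rep.res (primeLocalToGlobal q.1) (Contract34.mu p)) →ₗ[ZMod p] ZMod p,
      (∀ x : (globalLevels S).H2 (Contract34.mu p),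
        ∑ q : ↥S, lam q (Profin15.Plug.locq p S q.1 (Contract34.mu p) x) = 0) ∧
      (∀ x : (globalLevels S).H2 (Contract34.mu p),
        ∑ q : ↥S, lam q (Wire41.ShaMap.locH2 S (Contract34.mu p) q x) = 0) ∧
      ∀ (q : ↥S) (M : Rep.{0} (ZMod p) GQ) [Module.Finite (ZMod p) M],
        Contract34.IsSRep p S M →
        Function.Bijective (theta (pullLevels (primeLocalToGlobal q.1))
          (Rep.res (primeLocalToGlobal q.1) (Contract34.mu p)) (lam q)
          (Rep.res (primeLocalToGlobal q.1) M)) := by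
  obtain ⟨lam, hne, hsum⟩ := (Profin15.Plug.reciprocity_iff p S).1 hP34
  refine ⟨lam, hsum, fun x => ?_, fun q M _ hM => ?_⟩
  · simp only [Wire41.ShaMap.locH2_eq_res₂]
    exact hsum x
  · exact local_duality_res_of_plugs p S hpS q (hP2 q.1 q.2) hP5 (lam q) (hne q) M hM

end Main

end Fermat.Agent.S55.LocDual26.Plugs
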