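/-
S55 / 24a-LOC-DUAL20 (helper26), part (E): route W59 fed with the LITERAL `Contract34` plugs.

helper52's `R3Wire52.Plugs` asks for `LocalBase` (a cofinal family of good LOCAL levels); this is
not derivable from the literal plug (P5), which only speaks about `S`-levels.  It is not needed:
the assembly (`Dualizing11.sha_duality_of_plugs`) uses local duality only for restrictions of
`S`-representations (`LocalDual`), and this follows from the literal (P2), (P5) and `inv q ≠ 0`
(`LocDual26.Plugs`).  Result:

* `rightExactH2_of_globalRightExact` : literal (P1) ⇒ `RightExactH2 (globalLevels S)`;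
* `exists_inv_of_lit` : literal (P2), (P3P4), (P5) ⇒ an `InvFamily` with `inv q ≠ 0`,
  `R3Wire52.Reciprocity`, `LocalDual`;
* `topStatementCount_of_globalBase` : `Contract34.TopStatementCount` from ONE remaining formal
  statement `GlobalBaseStatement` (the base case `hbase` of the global representability from the
  literal plugs; producer `HBase48` + `Dualizing59.BaseInst` + (P6) + (P7')).
-/
import Fermat.Agent.S55.R3Wire52b
import Fermat.Agent.S55.LocDual26.Plugs
import Fermat.Agent.S55.Dualizing11.Top
import Fermat.Agent.S55.Contract34b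

set_option autoImplicit false
set_option linter.style.haveILetI false

open CategoryTheory Module groupCohomology ExtCitation

namespace Fermat.Agent.S55.LocDual26.Wire

open Fermat.Agent.S55.Profin15 Fermat.Agent.S55.Dualizing59 Fermat.Agent.S55.R3Wire52
open Fermat.Agent.Lib.FrobeniusExists (Qb GQ)
open Fermat.Agent.S55.Contract34 (mu)

variable (p : ℕ) [Fact p.Prime] (S : Finset Nat.Primes)

/-! ### literal (P1) in the `Dualizing59` form -/

/-- a smooth finite-dimensional module of `G_ℚ` (for the `S`-levels) is an `S`-representation -/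
theorem isSRep_of_isSmooth (N : Rep.{0} (ZMod p) GQ) [Module.Finite (ZMod p) N]
    (hN : (globalLevels S).IsSmooth N) : Contract34.IsSRep p S N := by
  obtain ⟨V, hV, htriv⟩ := exists_level_trivial N hN
  exact ⟨V, hV, fun s hs => LinearMap.ext fun n => htriv s hs n⟩

/-- (P1) in the `Dualizing59` form. -/
theorem rightExactH2_of_globalRightExact (h : Contract34.GlobalRightExact p S) :
    RightExactH2 (ZMod p) (globalLevels S) := by
  have hL := (Profin15.Plug.globalRightExact_iff p S).1 h
  intro P N hPf hNf hP hN π hπ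
  haveI := hPf
  haveI := hNf
  let g : P ⟶ N := Rep.ofHom (ρ := P.ρ) (σ := N.ρ) ⟨π.1, fun g => LinearMap.ext (π.2 g)⟩
  have hg := hL P N (isSRep_of_isSmooth p S P hP) (isSRep_of_isSmooth p S N hN) g hπ
  intro y
  obtain ⟨x, hx⟩ := hg y
  refine ⟨x, ?_⟩
  rw [← hx]
  obtain ⟨z, rfl⟩ := Submodule.mkQ_surjective _ x
  rfl

/-! ### the local side from the literal plugs -/

variable {p S}

/-- local duality in degrees (2,0) for the restrictions of `S`-representations: what the assembly
of route W59 really uses of the local side. -/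
def LocalDual (inv : InvFamily p S) : Prop :=
  ∀ (q : ↥S) (M : Rep.{0} (ZMod p) GQ) [Module.Finite (ZMod p) M], Contract34.IsSRep p S M →
    Function.Bijective
      (theta (Uq S q) (Rep.res (rq S q) (mu p)) (inv q) (Rep.res (rq S q) M))

/-- `LocalBase` (a cofinal family of good local levels) implies `LocalDual`. -/
theorem localDual_of_localBase (inv : InvFamily p S)
    (hRS : ∀ q : ↥S, RightExactH2 (ZMod p) (Uq S q)) (h : LocalBase inv) : LocalDual inv := by
  intro q M _ hM
  haveI : Module.Finite (ZMod p) (Rep.res (rq S q) M) := inferInstanceAs (Module.Finite (ZMod p) M)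
  exact theta_bijective _ _ _ (hRS q) (h q) (Rep.res (rq S q) M)
    ((isContinuous_pullLevels S (rq S q)).isSmooth M (Wire41.SRep.isSmooth_of_isSRep hM))

variable (p S)

/-- **The local side of W59 from the literal plugs** (P2), (P3P4), (P5). -/
theorem exists_inv_of_lit (hpS : pPrime p ∈ S)
    (hP2 : ∀ q ∈ S, Contract34.LocalRightExact p q) (hP34 : Contract34.Reciprocity p S)
    (hP5 : Contract34.LocalDim p S) :
    ∃ inv : InvFamily p S, (∀ q, inv q ≠ 0) ∧ R3Wire52.Reciprocity inv ∧ LocalDual inv := by
  obtain ⟨lam, hne, hsum⟩ := (Profin15.Plug.reciprocity_iff p S).1 hP34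
  refine ⟨lam, hne, fun x => ?_, fun q M _ hM => ?_⟩
  · have h := hsum x
    simp only [← Wire41.ShaMap.locH2_eq_res₂] at h
    exact h
  · exact LocDual26.Plugs.local_duality_res_of_plugs p S hpS q (hP2 q.1 q.2) hP5 (lam q) (hne q)
      M hM

/-! ### the assembly -/

variable {p S}

/-- **Poitou–Tate duality `Sha¹(M') ≃ Sha²(M)^*` on route W59, with `LocalDual` in place of
`LocalBase`.** -/
theorem shaDuality_of_localDual (hS : Nonempty ↥S) (hμ : MuTrivialised p S)
    (hRS : RightExactH2 (ZMod p) (globalLevels S)) (inv : InvFamily p S)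
    (hrec : R3Wire52.Reciprocity inv) (hloc : LocalDual inv) (hglob : GlobalBase hμ inv)
    (M : Rep.{0} (ZMod p) GQ) [Module.Finite (ZMod p) M] (hM : Contract34.IsSRep p S M) :
    Nonempty (↥(Dualizing59.Sha1 (hr S) (M.dualTwist (cycloChar p))) ≃ₗ[ZMod p]
      Module.Dual (ZMod p) ↥(Dualizing59.Sha2 (hr S) M)) :=
  Dualizing11.sha_duality_of_plugs (hr S) hμ inv hRS hrec
    (fun Λ hΛ => hglob Λ ((R3Wire52b.isTrace_iff hμ inv Λ).2 hΛ)) M
    (M.dualTwist (cycloChar p)) (Wire41.SRep.isSmooth_of_isSRep hM) (fun q => (hloc q M hM).2)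
    (Wire41.SRep.pairMu M) (Wire41.SRep.pairMu_equivariant M) (Wire41.SRep.pairMu_bijective M)

/-- an `S`-representation satisfies the frozen smoothness hypothesis `hsm` -/
theorem hsm_of_isSRep {M : Rep.{0} (ZMod p) GQ} (hM : Contract34.IsSRep p S M) :
    ∀ m : M, ∃ F : IntermediateField ℚ (AlgebraicClosure ℚ), FiniteDimensional ℚ F ∧
      ∀ s ∈ F.fixingSubgroup, M.ρ s m = m := by
  obtain ⟨U, hU, hMU⟩ := hM
  obtain ⟨_, F, hF, rfl⟩ := hU
  exact fun m => ⟨F, hF.1, fun s hs => by rw [hMU s hs]; rfl⟩

/-- the conclusion of the top layer from the data of route W59 with `LocalDual` -/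
theorem dimConclusion_of_localDual (hp2 : p ≠ 2) (hpS : pPrime p ∈ S)
    (hRS : RightExactH2 (ZMod p) (globalLevels S)) (inv : InvFamily p S)
    (hrec : R3Wire52.Reciprocity inv) (hloc : LocalDual inv)
    (hglob : GlobalBase (Wire41.SRep.exists_level_fixing_mu hpS) inv)
    (M : Rep.{0} (ZMod p) GQ) [FiniteDimensional (ZMod p) M] (hM : Contract34.IsSRep p S M) :
    Contract34.DimConclusion p S M :=
  R3Wire52.dimConclusion_of_shaDuality S hp2 M (hsm_of_isSRep hM)
    (shaDuality_of_localDual ⟨⟨pPrime p, hpS⟩⟩ _ hRS inv hrec hloc hglob M hM)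

/-- **The one formal statement of route W59 that remains over the literal plugs**: the global base
case `hbase` (bijectivity of `theta` for `(G_S, Y, Λ)` on the permutation modules of a cofinal
family of `S`-levels) from the literal plugs and local duality.  Producers: `HBase48`
(`hbase_of_plugs`) + `Dualizing59.BaseInst` ((c1), (c2), (c4)) + (P6) ((c3), (c5)) + (P7')
((c6)). -/
def GlobalBaseStatement : Prop :=
  ∀ (p : ℕ) [Fact p.Prime], p ≠ 2 → ∀ S : Finset Nat.Primes, ∀ hpS : pPrime p ∈ S,
    Contract34.PlugsCount p S → ∀ inv : InvFamily p S, (∀ q, inv q ≠ 0) →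
      R3Wire52.Reciprocity inv → LocalDual inv →
      GlobalBase (Wire41.SRep.exists_level_fixing_mu hpS) inv

/-- **`Contract34.TopStatementCount` on route W59**, from the one remaining formal statement. -/
theorem topStatementCount_of_globalBase (h : GlobalBaseStatement) :
    Contract34.TopStatementCount := by
  intro p _ hp2 S hpS hPlugs M _ hM
  obtain ⟨hP1, hP2, hP34, hP5, -, -⟩ := id hPlugs
  obtain ⟨inv, hne, hrec, hloc⟩ := exists_inv_of_lit p S hpS hP2 hP34 hP5
  exact dimConclusion_of_localDual hp2 hpS (rightExactH2_of_globalRightExact p S hP1) inv hrec hloc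
    (h p hp2 S hpS hPlugs inv hne hrec hloc) M hM

/-- the frozen S55 dimension statement from the literal arithmetic plugs and `GlobalBaseStatement` -/
theorem dimStatement_of_globalBase (h : GlobalBaseStatement)
    (hArith : Contract34.ArithStatementCount) : Spine15.DimStatement :=
  Contract34.dimStatement_of_contractCount (topStatementCount_of_globalBase h) hArith
    (fun p _ S M _ hsm hMur => ProfinGlobal22.sRepStatement p S M hsm hMur)

end Fermat.Agent.S55.LocDual26.Wire
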